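import Fermat.Agent.H57.KLTame.Interfaces
import Fermat.Agent.H88.KL.KummerBranch

/-!
# Abhyankar's lemma in valuation form   (helper57, support for P-ES row 396 KL-N-TAME)

`theorem Fermat.Agent.H57.KLTame.tameUnramified : TameUnramifiedStatement`.

Built on helper88's toolbox `Fermat.Agent.H88.KLB` (`Presents`, `DiscAt`, `kummer_discAt`, ...).
-/

set_option autoImplicit false
set_option maxSynthPendingDepth 3
set_option linter.style.haveILetI false
set_option linter.unusedSectionVars false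

noncomputable section

namespace Fermat.Agent.H57.KLTame

open Polynomial
open Fermat.Agent.H22.KL Fermat.Agent.H88.KLB

/-! ## Generalities on valuations -/

section General

variable {E : Type} [Field E] {Γ : Type*} [LinearOrderedCommGroupWithZero Γ]

/-- a finite sum with a strictly dominant term has the value of this term -/
theorem val_sum_eq_of_dominant (val : Valuation E Γ) {ι : Type*} (S : Finset ι) (f : ι → E)
    (i₀ : ι) (hi₀ : i₀ ∈ S) (h : ∀ i ∈ S, i ≠ i₀ → val (f i) < val (f i₀)) :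
    val (∑ i ∈ S, f i) = val (f i₀) := by
  classical
  rw [← Finset.add_sum_erase S f hi₀]
  rcases eq_or_ne (val (f i₀)) 0 with h0 | h0
  · have hemp : S.erase i₀ = ∅ := by
      rw [Finset.eq_empty_iff_forall_notMem]
      intro i hi
      have h1 := h i (Finset.mem_of_mem_erase hi) (Finset.ne_of_mem_erase hi)
      rw [h0] at h1
      exact not_lt_zero h1
    rw [hemp, Finset.sum_empty, add_zero]
  · apply Valuation.map_add_eq_of_lt_left
    refine Valuation.map_sum_lt val h0 fun i hi => ?_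
    exact h i (Finset.mem_of_mem_erase hi) (Finset.ne_of_mem_erase hi)

/-- `σ ^ j = σ ^ k → j = k` for `0 < σ < 1` -/
theorem zpow_inj_of_lt_one {σ : Γ} (h0 : 0 < σ) (h1 : σ < 1) {j k : ℤ} (h : σ ^ j = σ ^ k) :
    j = k := by
  rcases lt_trichotomy j k with hjk | hjk | hjk
  · exact absurd h ((zpow_lt_zpow_iff_right_of_lt_one₀ h0 h1).mpr hjk).ne'
  · exact hjk
  · exact absurd h ((zpow_lt_zpow_iff_right_of_lt_one₀ h0 h1).mpr hjk).ne

end General

/-! ## Restriction of places along the Kummer cover -/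

section Restrict

variable {A : Type} [CommRing A]
variable {E E₁ : Type} [Field E] [Field E₁] [Algebra A E] [Algebra A E₁] [Algebra E E₁]
  [IsScalarTower A E E₁]

omit [Algebra A E] [Algebra A E₁] [IsScalarTower A E E₁] [CommRing A] in
theorem isIntegral_of_pow_eq {n : ℕ} (hn : 0 < n) {w : E₁} {u : E}
    (hw : w ^ n = algebraMap E E₁ u) : IsIntegral E w := by
  refine ⟨X ^ n - C u, monic_X_pow_sub_C u hn.ne', ?_⟩
  rw [eval₂_sub, eval₂_pow, eval₂_X, eval₂_C, hw, sub_self]

omit [Algebra A E] [Algebra A E₁] [IsScalarTower A E E₁] [CommRing A] in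
theorem isAlgebraic_of_adjoin {e : ℕ} (he : 0 < e) {s : E₁} {u : E}
    (hs : s ^ e = algebraMap E E₁ u) (hgen : Algebra.adjoin E ({s} : Set E₁) = ⊤) :
    Algebra.IsAlgebraic E E₁ := by
  have hle : Algebra.adjoin E ({s} : Set E₁) ≤ integralClosure E E₁ := by
    apply Algebra.adjoin_le
    intro y hy
    rw [Set.mem_singleton_iff] at hy
    rw [hy]
    exact isIntegral_of_pow_eq he hs
  refine ⟨fun z => ?_⟩
  have hz : z ∈ Algebra.adjoin E ({s} : Set E₁) := hgen ▸ Algebra.mem_top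
  exact (hle hz : IsIntegral E z).isAlgebraic

theorem algebraMap_eq_of_pow_eq {x : E} {c : A} {e : ℕ} {s : E₁}
    (hs : s ^ e = algebraMap E E₁ (x - algebraMap A E c)) :
    algebraMap E E₁ x = s ^ e + algebraMap A E₁ c := by
  rw [hs, map_sub, ← IsScalarTower.algebraMap_apply A E E₁, sub_add_cancel]

/-- the centre of `v₁ ∩ E` lies in `(ϖ, X - c)` if the centre of `v₁` lies in `(ϖ, X)` -/
theorem inDisc_comap_kummer (ϖ : A) (x : E) (c : A) {e : ℕ} (he : 0 < e) {s : E₁}
    (hs : s ^ e = algebraMap E E₁ (x - algebraMap A E c)) (v₁ : ValuationSubring E₁)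
    (h : InDisc A E₁ ϖ s X v₁) :
    InDisc A E ϖ x (X - C c) (v₁.comap (algebraMap E E₁)) := by
  intro h' hh'
  have h1 : algebraMap E E₁ (aeval x h') ∈ v₁.nonunits := (mem_nonunits_comap v₁ _).mp hh'
  have h2 : algebraMap E E₁ (aeval x h') = aeval s (h'.comp (X ^ e + C c)) := by
    rw [aeval_comp, ← aeval_algebraMap_apply, algebraMap_eq_of_pow_eq hs]
    congr 1
    rw [map_add, map_pow, aeval_X, aeval_C]
  rw [h2] at h1
  obtain ⟨p, q, hpq⟩ := h _ h1
  have h3 : h'.eval c = ϖ * p.eval 0 := by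
    have h4 := congrArg (Polynomial.eval 0) hpq
    rw [eval_comp, eval_add, eval_pow, eval_X, eval_C, zero_pow he.ne', zero_add, eval_add,
      eval_mul, eval_mul, eval_C, eval_X, zero_mul, add_zero] at h4
    exact h4
  refine ⟨C (p.eval 0), h' /ₘ (X - C c), ?_⟩
  have h5 := Polynomial.modByMonic_add_div h' (X - C c)
  rw [modByMonic_X_sub_C_eq_C_eval, h3] at h5
  rw [← map_mul]
  exact h5.symm

/-- `K₀(x) ⊆ K₀(s)` -/
theorem map_mem_chartField_kummer {x : E} {c : A} {e : ℕ} {s : E₁}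
    (hs : s ^ e = algebraMap E E₁ (x - algebraMap A E c)) {t : E}
    (ht : t ∈ chartField A E x) : algebraMap E E₁ t ∈ chartField A E₁ s := by
  have h1 : algebraMap E E₁ t ∈ chartField A E₁ (algebraMap E E₁ x) := map_mem_chartField x ht
  have h2 : chartField A E₁ (algebraMap E E₁ x) ≤ chartField A E₁ s := by
    unfold chartField
    apply Subfield.closure_mono
    unfold chartRing
    intro y hy
    have h3 : Algebra.adjoin A ({algebraMap E E₁ x} : Set E₁) ≤ Algebra.adjoin A ({s} : Set E₁) := by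
      apply Algebra.adjoin_le
      intro y hy
      rw [Set.mem_singleton_iff] at hy
      rw [hy, algebraMap_eq_of_pow_eq hs]
      exact Subalgebra.add_mem _
        (Subalgebra.pow_mem _ (Algebra.self_mem_adjoin_singleton A s) e)
        (Subalgebra.algebraMap_mem _ c)
    exact h3 hy
  exact h2 h1

end Restrict

/-! ## The unramified sublayer `E(w)`, `w ^ n = unit` -/

section Sublayer

variable {A : Type} [CommRing A]
variable {E E₁ : Type} [Field E] [Field E₁] [Algebra A E] [Algebra E E₁]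

open IntermediateField in
/-- **Unramified sublayer**: if `w ^ n = u` with `u` and `n` units at the place `v₁ ∩ E` and `t`
is a uniformiser of `v₁ ∩ E`, every nonzero element of `E(w)` has value in `val(t) ^ ℤ`. -/
theorem val_mem_zpowers_of_mem_adjoin (v₁ : ValuationSubring E₁)
    (hpl₀ : IsPlace A E (v₁.comap (algebraMap E E₁)))
    {n : ℕ} (hn : n ≠ 0) (hnv : v₁.valuation ((n : ℕ) : E₁) = 1)
    {u : E} (hu1 : u ∈ v₁.comap (algebraMap E E₁)) (hu2 : u⁻¹ ∈ v₁.comap (algebraMap E E₁))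
    (hu0 : u ≠ 0) {w : E₁} (hw : w ^ n = algebraMap E E₁ u)
    {t : E} (ht : IsUniformiser E (v₁.comap (algebraMap E E₁)) t)
    {y : E₁} (hy : y ∈ Algebra.adjoin E ({w} : Set E₁)) (hy0 : y ≠ 0) :
    ∃ k : ℤ, v₁.valuation y = v₁.valuation (algebraMap E E₁ t) ^ k := by
  have hint : IsIntegral E w := isIntegral_of_pow_eq (Nat.pos_of_ne_zero hn) hw
  set v' : ValuationSubring ↥E⟮w⟯ := v₁.comap (algebraMap ↥E⟮w⟯ E₁) with hv'
  have hcomap : v'.comap (algebraMap E ↥E⟮w⟯) = v₁.comap (algebraMap E E₁) := by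
    ext z
    exact Iff.rfl
  haveI : Algebra.IsAlgebraic E ↥E⟮w⟯ := by
    haveI : FiniteDimensional E ↥E⟮w⟯ := IntermediateField.adjoin.finiteDimensional hint
    exact Algebra.IsAlgebraic.of_finite E ↥E⟮w⟯
  have hpl' : IsPlace A E (v'.comap (algebraMap E ↥E⟮w⟯)) := hcomap ▸ hpl₀
  have hn0 : ((n : ℕ) : E₁) ≠ 0 := by
    intro h0
    rw [h0, map_zero] at hnv
    exact zero_ne_one hnv
  have hn0' : ((n : ℕ) : ↥E⟮w⟯) ≠ 0 := by
    intro h0
    apply hn0
    have := congrArg (algebraMap ↥E⟮w⟯ E₁) h0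
    rwa [map_natCast, map_zero] at this
  have hnv' : v'.valuation ((n : ℕ) : ↥E⟮w⟯) = 1 := by
    rw [(presents_valuation v').val_eq_one_iff hn0']
    have h1 := ((presents_valuation v₁).val_eq_one_iff hn0).mp hnv
    constructor
    · rw [hv', ValuationSubring.mem_comap, map_natCast]
      exact h1.1
    · rw [hv', ValuationSubring.mem_comap, map_inv₀, map_natCast]
      exact h1.2
  have hw' : (AdjoinSimple.gen E w) ^ n = algebraMap E ↥E⟮w⟯ u := by
    apply Subtype.ext
    simpa using hw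
  have hgen' : Algebra.adjoin E ({AdjoinSimple.gen E w} : Set ↥E⟮w⟯) = ⊤ := by
    have := (IntermediateField.adjoin.powerBasis hint).adjoin_gen_eq_top
    rwa [IntermediateField.adjoin.powerBasis_gen] at this
  have hord : OrdDvd E (v'.comap (algebraMap E ↥E⟮w⟯)) n u := by
    refine ⟨1, one_ne_zero, ?_, ?_⟩
    · rw [one_pow, mul_one, hcomap]; exact hu1
    · rw [one_pow, mul_one, hcomap]; exact hu2
  have ht' : IsUniformiser E (v'.comap (algebraMap E ↥E⟮w⟯)) t := hcomap ▸ ht
  have hD := kummer_discAt (A := A) v' hpl' n hn hnv' u hu0 (AdjoinSimple.gen E w) hw' hgen'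
    hord ht'
  -- transfer to `v₁.valuation`
  have hyE : y ∈ E⟮w⟯ := IntermediateField.algebra_adjoin_le_adjoin E _ hy
  have hy0' : (⟨y, hyE⟩ : ↥E⟮w⟯) ≠ 0 := fun h0 => hy0 (congrArg Subtype.val h0)
  obtain ⟨k, hk⟩ := hD.2.2 ⟨y, hyE⟩ hy0'
  refine ⟨k, ?_⟩
  have ht0 : algebraMap E ↥E⟮w⟯ t ≠ 0 := hD.1
  have h1 : v'.valuation ((⟨y, hyE⟩ : ↥E⟮w⟯) / (algebraMap E ↥E⟮w⟯ t) ^ k) = 1 := by
    rw [map_div₀, map_zpow₀, hk]
    exact div_self (zpow_ne_zero _ ((Valuation.ne_zero_iff _).mpr ht0))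
  have h2 := ((presents_valuation v').val_eq_one_iff
    (div_ne_zero hy0' (zpow_ne_zero _ ht0))).mp h1
  have h3 : y / (algebraMap E E₁ t) ^ k ≠ 0 := by
    apply div_ne_zero hy0
    apply zpow_ne_zero
    intro h0
    apply ht0
    apply Subtype.ext
    exact h0
  have hcoe : algebraMap ↥E⟮w⟯ E₁ ((⟨y, hyE⟩ : ↥E⟮w⟯) / (algebraMap E ↥E⟮w⟯ t) ^ k) =
      y / (algebraMap E E₁ t) ^ k := by
    rw [map_div₀, map_zpow₀]
    rfl
  have h4 : v₁.valuation (y / (algebraMap E E₁ t) ^ k) = 1 := by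
    rw [(presents_valuation v₁).val_eq_one_iff h3, ← hcoe]
    refine ⟨h2.1, ?_⟩
    rw [← map_inv₀]
    exact h2.2
  rw [map_div₀, map_zpow₀, div_eq_one_iff_eq] at h4
  · exact h4
  · apply zpow_ne_zero
    rw [Valuation.ne_zero_iff]
    intro h0
    exact h3 (by rw [h0, zero_zpow_eq]; split_ifs <;> simp_all)

end Sublayer

/-! ## The totally ramified top layer `E(w)(s)`, `s ^ m = w t` -/

section TopLayer

variable {E E₁ : Type} [Field E] [Field E₁] [Algebra E E₁]
variable {Γ : Type*} [LinearOrderedCommGroupWithZero Γ]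

/-- every element of `E[s]` is a combination of `1, s, …, s ^ (m - 1)` with coefficients in
`E[w]`, if `s ^ m = w t` with `t ∈ E` -/
theorem exists_repr {m : ℕ} {s w : E₁} {t : E}
    (hsm : s ^ m = w * algebraMap E E₁ t) (hgen : Algebra.adjoin E ({s} : Set E₁) = ⊤)
    (hm : 0 < m) (z : E₁) :
    ∃ a : ℕ → E₁, (∀ i, a i ∈ Algebra.adjoin E ({w} : Set E₁)) ∧
      z = ∑ i ∈ Finset.range m, a i * s ^ i := by
  classical
  have hz : z ∈ Algebra.adjoin E ({s} : Set E₁) := hgen ▸ Algebra.mem_top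
  rw [Algebra.adjoin_singleton_eq_range_aeval] at hz
  obtain ⟨P, rfl⟩ := hz
  refine ⟨fun i => ∑ j ∈ Finset.range (P.natDegree + 1),
    if j % m = i then P.coeff j • (w * algebraMap E E₁ t) ^ (j / m) else 0, fun i => ?_, ?_⟩
  · refine Subalgebra.sum_mem _ fun j _ => ?_
    split_ifs
    · exact Subalgebra.smul_mem _ (Subalgebra.pow_mem _ (Subalgebra.mul_mem _
        (Algebra.self_mem_adjoin_singleton E w) (Subalgebra.algebraMap_mem _ t)) _) _
    · exact Subalgebra.zero_mem _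
  · show aeval s P = _
    rw [aeval_eq_sum_range]
    simp_rw [Finset.sum_mul]
    rw [Finset.sum_comm]
    refine Finset.sum_congr rfl fun j _ => ?_
    simp_rw [ite_mul, zero_mul]
    rw [Finset.sum_ite_eq, if_pos (Finset.mem_range.mpr (Nat.mod_lt j hm)), ← hsm, smul_mul_assoc,
      ← pow_mul, ← pow_add, Nat.div_add_mod]

/-- **Totally ramified layer**: values of combinations `∑_{i < m} a_i s ^ i` whose coefficients
have values in `(val s ^ m) ^ ℤ`. -/
theorem exists_zpow_of_repr (val : Valuation E₁ Γ) {s : E₁} {m : ℕ}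
    (hσ0 : s ≠ 0) (hσ1 : val s < 1) (F : Set E₁)
    (hF : ∀ y ∈ F, y ≠ 0 → ∃ k : ℤ, val y = (val s ^ m) ^ k)
    (a : ℕ → E₁) (ha : ∀ i, a i ∈ F) (hz : ∑ i ∈ Finset.range m, a i * s ^ i ≠ 0) :
    ∃ j : ℤ, val (∑ i ∈ Finset.range m, a i * s ^ i) = val s ^ j := by
  classical
  have hσpos : 0 < val s := zero_lt_iff.mpr ((Valuation.ne_zero_iff _).mpr hσ0)
  set T := (Finset.range m).filter (fun i => a i ≠ 0) with hT
  have hTne : T.Nonempty := by
    by_contra hemp
    rw [Finset.not_nonempty_iff_eq_empty] at hemp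
    apply hz
    refine Finset.sum_eq_zero fun i hi => ?_
    have : a i = 0 := by
      by_contra h0
      have : i ∈ T := Finset.mem_filter.mpr ⟨hi, h0⟩
      rw [hemp] at this
      exact absurd this (Finset.notMem_empty i)
    rw [this, zero_mul]
  obtain ⟨i₀, hi₀, hmax⟩ := Finset.exists_max_image T (fun i => val (a i * s ^ i)) hTne
  have hi₀m : i₀ ∈ Finset.range m := (Finset.mem_filter.mp hi₀).1
  have hi₀a : a i₀ ≠ 0 := (Finset.mem_filter.mp hi₀).2
  -- the value of a term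
  have hterm : ∀ i, a i ≠ 0 → ∃ k : ℤ, val (a i * s ^ i) = val s ^ ((m : ℤ) * k + (i : ℤ)) := by
    intro i hai
    obtain ⟨k, hk⟩ := hF (a i) (ha i) hai
    refine ⟨k, ?_⟩
    rw [map_mul, map_pow, hk, ← zpow_natCast (val s) m, ← zpow_mul, ← zpow_natCast (val s) i,
      ← zpow_add₀ hσpos.ne']
  obtain ⟨k₀, hk₀⟩ := hterm i₀ hi₀a
  refine ⟨(m : ℤ) * k₀ + (i₀ : ℤ), ?_⟩
  rw [← hk₀]
  refine val_sum_eq_of_dominant val _ _ i₀ hi₀m fun i hi hne => ?_
  by_cases hai : a i = 0
  · rw [hai, zero_mul, map_zero, hk₀]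
    exact zpow_pos hσpos _
  · have hiT : i ∈ T := Finset.mem_filter.mpr ⟨hi, hai⟩
    refine lt_of_le_of_ne (hmax i hiT) fun heq => ?_
    obtain ⟨k, hk⟩ := hterm i hai
    rw [hk, hk₀] at heq
    have h1 := zpow_inj_of_lt_one hσpos hσ1 heq
    have h2 : (i : ℤ) % (m : ℤ) = (i₀ : ℤ) % (m : ℤ) := by
      have h3 : (i : ℤ) = (m : ℤ) * (k₀ - k) + (i₀ : ℤ) := by linarith
      rw [h3, Int.mul_add_emod_self_left] 
    have him : i < m := Finset.mem_range.mp hi
    have hi₀m' : i₀ < m := Finset.mem_range.mp hi₀m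
    rw [Int.emod_eq_of_lt (by positivity) (by exact_mod_cast him),
      Int.emod_eq_of_lt (by positivity) (by exact_mod_cast hi₀m')] at h2
    exact hne (by exact_mod_cast h2)

end TopLayer

/-! ## The two cases -/

section Cases

variable {A : Type} [CommRing A]
variable {E E₁ : Type} [Field E] [Field E₁] [Algebra A E] [Algebra A E₁] [Algebra E E₁]
  [IsScalarTower A E E₁]

/-- **Ramified case**: if `x - c` has order `n ∣ e` at `v₁ ∩ E`, then `s` (`s ^ e = x - c`) is a
uniformiser of `v₁`. -/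
theorem isUniformiser_of_ramified (v₁ : ValuationSubring E₁)
    (hpl₀ : IsPlace A E (v₁.comap (algebraMap E E₁)))
    {y : E} (hy0 : y ≠ 0) {e : ℕ} {s : E₁} (hs : s ^ e = algebraMap E E₁ y)
    (hgen : Algebra.adjoin E ({s} : Set E₁) = ⊤)
    (hy : y ∈ (v₁.comap (algebraMap E E₁)).nonunits)
    {t : E} (ht : IsUniformiser E (v₁.comap (algebraMap E E₁)) t) {n : ℕ} (hn : n ∣ e)
    (he : 0 < e) (hnv : v₁.valuation ((n : ℕ) : E₁) = 1)
    (hu1 : y / t ^ n ∈ v₁.comap (algebraMap E E₁))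
    (hu2 : t ^ n / y ∈ v₁.comap (algebraMap E E₁)) : IsUniformiser E₁ v₁ s := by
  obtain ⟨m, hm⟩ := hn
  have hn0 : n ≠ 0 := by
    rintro rfl
    rw [zero_mul] at hm
    exact he.ne' hm
  have hm0 : 0 < m := by
    rcases Nat.eq_zero_or_pos m with h | h
    · rw [h, mul_zero] at hm
      exact absurd hm he.ne'
    · exact h
  have ht0 : t ≠ 0 := ht.1
  have htE : algebraMap E E₁ t ≠ 0 := (_root_.map_ne_zero _).mpr ht0
  have hs0 : s ≠ 0 := by
    intro h0
    rw [h0, zero_pow he.ne'] at hs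
    exact hy0 ((_root_.map_eq_zero _).mp hs.symm)
  set val := v₁.valuation with hval
  have hp := presents_valuation v₁
  -- `val s < 1`
  have hs1 : val s < 1 := by
    have h1 : val (algebraMap E E₁ y) < 1 := hp.mem_nonunits.mp ((mem_nonunits_comap v₁ y).mp hy)
    rw [← hs, map_pow] at h1
    by_contra h2
    push Not at h2
    exact absurd h1 (not_lt.mpr (one_le_pow₀ h2))
  -- the unit `u` and its root `w`
  set u : E := y / t ^ n with hu
  have hu0 : u ≠ 0 := div_ne_zero hy0 (pow_ne_zero _ ht0)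
  have hu2' : u⁻¹ ∈ v₁.comap (algebraMap E E₁) := by
    rw [hu, inv_div]
    exact hu2
  set w : E₁ := s ^ m / algebraMap E E₁ t with hw
  have hwn : w ^ n = algebraMap E E₁ u := by
    rw [hw, div_pow, ← pow_mul, mul_comm m n, ← hm, hs, hu, map_div₀, map_pow]
  have hsm : s ^ m = w * algebraMap E E₁ t := by
    rw [hw, div_mul_cancel₀ _ htE]
  have hvalu : val (algebraMap E E₁ u) = 1 := by
    rw [hp.val_eq_one_iff ((_root_.map_ne_zero _).mpr hu0)]
    refine ⟨hu1, ?_⟩
    rw [← map_inv₀]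
    exact hu2'
  have hvalw : val w = 1 := by
    apply val_eq_one_of_pow hn0
    rw [← map_pow, hwn, hvalu]
  have hστ : val s ^ m = val (algebraMap E E₁ t) := by
    rw [← map_pow, hsm, map_mul, hvalw, one_mul]
  -- discreteness
  have hD : DiscAt val s := by
    refine ⟨hs0, hs1, fun z hz => ?_⟩
    obtain ⟨a, ha, hza⟩ := exists_repr hsm hgen hm0 z
    rw [hza] at hz ⊢
    refine exists_zpow_of_repr val hs0 hs1 (Algebra.adjoin E ({w} : Set E₁) : Set E₁)
      (fun y' hy' hy'0 => ?_) a ha hz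
    rw [hστ]
    exact val_mem_zpowers_of_mem_adjoin (A := A) v₁ hpl₀ hn0 hnv hu1 hu2' hu0 hwn ht hy' hy'0
  exact hD.isUniformiser hp

end Cases

/-- **Abhyankar's lemma, valuation form.** -/
theorem tameUnramified : TameUnramifiedStatement := by
  intro A _ _ _ E E₁ _ _ _ _ _ _ _ hinj ϖ x hx c e he s hs hgen hT v₁ hv₁ hdisc
  haveI : Algebra.IsAlgebraic E E₁ := isAlgebraic_of_adjoin he hs hgen
  obtain ⟨hpl, hsv⟩ := hv₁
  have hpl₀ : IsPlace A E (v₁.comap (algebraMap E E₁)) := isPlace_comap hpl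
  have hA := hpl.2.2
  have hcv : algebraMap A E₁ c ∈ v₁ := by
    rcases eq_or_ne c 0 with rfl | hc
    · rw [map_zero]; exact v₁.zero_mem
    · exact (hA c hc).1
  have hxv : x ∈ v₁.comap (algebraMap E E₁) := by
    rw [ValuationSubring.mem_comap, algebraMap_eq_of_pow_eq hs]
    exact v₁.add_mem _ _ (pow_mem hsv e) hcv
  have hy0 : x - algebraMap A E c ≠ 0 := by
    intro h0
    apply hx
    refine ⟨X - C c, X_sub_C_ne_zero c, ?_⟩
    rw [map_sub, aeval_X, aeval_C, h0]
  have hyv : x - algebraMap A E c ∈ v₁.comap (algebraMap E E₁) := by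
    refine sub_mem hxv ?_
    rw [ValuationSubring.mem_comap, ← IsScalarTower.algebraMap_apply A E E₁]
    exact hcv
  have hdisc₀ := inDisc_comap_kummer ϖ x c he hs v₁ hdisc
  obtain ⟨h1, h2⟩ := hT _ ⟨hpl₀, hxv⟩ hdisc₀
  by_cases hu : x - algebraMap A E c ∈ (v₁.comap (algebraMap E E₁)).nonunits
  · obtain ⟨t, ht, n, hn, hu1, hu2⟩ := h2 hu
    have hn0 : n ≠ 0 := by
      rintro rfl
      exact he.ne' (Nat.eq_zero_of_zero_dvd hn)
    have hnv : v₁.valuation ((n : ℕ) : E₁) = 1 := val_natCast_eq_one (E₀ := E) hA n hn0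
    exact ⟨s, Subfield.subset_closure (Algebra.self_mem_adjoin_singleton A s),
      isUniformiser_of_ramified (A := A) v₁ hpl₀ hy0 hs hgen hu ht hn he hnv hu1 hu2⟩
  · obtain ⟨t, htK, ht⟩ := h1 hu
    refine ⟨algebraMap E E₁ t, map_mem_chartField_kummer hs htK, ?_⟩
    have hev : v₁.valuation ((e : ℕ) : E₁) = 1 := val_natCast_eq_one (E₀ := E) hA e he.ne'
    have hp₀ := (presents_valuation v₁).comap (algebraMap E E₁)
    have hval1 : (v₁.valuation.comap (algebraMap E E₁)) (x - algebraMap A E c) = 1 := by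
      apply le_antisymm ((hp₀ _).mp hyv)
      by_contra hlt
      push Not at hlt
      exact hu (hp₀.mem_nonunits.mpr hlt)
    have hunit := (hp₀.val_eq_one_iff hy0).mp hval1
    have hord : OrdDvd E (v₁.comap (algebraMap E E₁)) e (x - algebraMap A E c) := by
      refine ⟨1, one_ne_zero, ?_, ?_⟩
      · rw [one_pow, mul_one]; exact hunit.1
      · rw [one_pow, mul_one]; exact hunit.2
    have hD := kummer_discAt (A := A) v₁ hpl₀ e he.ne' hev (x - algebraMap A E c) hy0 s hs hgen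
      hord ht
    exact hD.isUniformiser (presents_valuation v₁)

end Fermat.Agent.H57.KLTame
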