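import Fermat.Agent.H22.ES.KLSetting

/-!
# P-ES / KL-N-TAME (row 396), support: Abhyankar's lemma in valuation form   (helper57)

`E₁ = E(s)`, `s ^ e = x - c`.  If in the residue disc of `(ϖ, x - c)` the only branch value of
`E / K₀(x)` is `c`, with ramification indices dividing `e` (`TameNear A E ϖ x c e`), then every
characteristic-zero place of `E₁` in the residue disc of `(ϖ, s)` is unramified over `K₀(s)`
(`UnramifiedNear A E₁ ϖ s X`).  This is the hypothesis needed to apply `PurityStatement` to
`(E₁, s, g = X)`.
-/

set_option autoImplicit false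

noncomputable section

namespace Fermat.Agent.H57.KLTame

open Polynomial
open Fermat.Agent.H22.KL

/-- **Abhyankar's lemma, valuation form.** -/
def TameUnramifiedStatement : Prop :=
  ∀ (A : Type) [CommRing A] [IsDomain A] [IsDiscreteValuationRing A]
    (E E₁ : Type) [Field E] [Field E₁] [Algebra A E] [Algebra A E₁] [Algebra E E₁]
    [IsScalarTower A E E₁] [CharZero E],
    Function.Injective (algebraMap A E) →
    ∀ (ϖ : A) (x : E), Transcendental A x → ∀ (c : A) (e : ℕ), 0 < e →
    ∀ (s : E₁), s ^ e = algebraMap E E₁ (x - algebraMap A E c) →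
      Algebra.adjoin E ({s} : Set E₁) = ⊤ →
      TameNear A E ϖ x c e → UnramifiedNear A E₁ ϖ s (X : A[X])

end Fermat.Agent.H57.KLTame
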